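/-
S45 (row 41).  ENDGAME (helper202): from "the Frey representation is modular of some conductor level" to a nonzero
weight 2 cusp form on `Γ₀(2)`, using the literal statements of S43 (hypothesis `NodeS43`), S44 (hypothesis `NodeS44'`),
S05 (hypothesis `NodeS05`), S08 (hypothesis `NodeS08`).  Nothing else; imports only the Prelude.
`Endgame.result_of_conductorLevel`.
-/
import Mathlib
import Fermat.Prelude.Def_FLTPrelim_FreyPackage
import Fermat.Prelude.Def_FLTPrelim_GaloisRep
import Fermat.Prelude.Def_FLTPrelim_Modularity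
import Fermat.Prelude.Def_FLTPrelim_ModularRep
import Fermat.Prelude.Def_FLTPrelim_Ramification
import Fermat.Prelude.Def_FreyPackage_IsConductorLevel

set_option autoImplicit false
open WeierstrassCurve WeierstrassCurve.Affine WeierstrassCurve.Affine.Point
open CuspForm ModularFormClass UpperHalfPlane
open FreyPackage

namespace Fermat.Agent.S45.Endgame

/-- The literal statement of S43. -/
def NodeS43 : Prop :=
  ∀ (P : FreyPackage) {N q : ℕ}, P.IsConductorLevel N → q.Prime → q ≠ 2 → q ≠ P.p → q ∣ N →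
    GaloisRepIsIrreducible (K := AlgebraicClosure ℚ) ℚ P.freyCurve P.p →
    P.ModularRepOfLevel N → P.GaloisRepUnramifiedAt q →
    ∃ M : ℕ, M ∣ N ∧ ¬ q ∣ M ∧ P.ModularRepOfLevel M

/-- The literal statement of S44. -/
def NodeS44' : Prop :=
  ∀ (P : FreyPackage) {N : ℕ}, P.IsConductorLevel N → P.p ∣ N →
    GaloisRepIsIrreducible (K := AlgebraicClosure ℚ) ℚ P.freyCurve P.p →
    P.ModularRepOfLevel N → ∃ M : ℕ, M ∣ N ∧ ¬ P.p ∣ M ∧ P.ModularRepOfLevel M

/-- The literal statement of S05. -/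
def NodeS05 : Prop :=
  ∀ (P : FreyPackage) {q : ℕ}, q.Prime → q ≠ 2 → q ≠ P.p → P.GaloisRepUnramifiedAt q

/-- The literal statement of S08. -/
def NodeS08 : Prop := ∀ f : CuspForm (CongruenceSubgroup.Gamma0 1) 2, f = 0

/-- One step: a conductor level which does not divide `2` can be properly lowered. -/
theorem exists_lt (h43 : NodeS43) (h44 : NodeS44') (h05 : NodeS05) (P : FreyPackage)
    (hirr : GaloisRepIsIrreducible (K := AlgebraicClosure ℚ) ℚ P.freyCurve P.p)
    {N : ℕ} (hc : P.IsConductorLevel N) (hm : P.ModularRepOfLevel N) (hN : ¬ N ∣ 2) :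
    ∃ M : ℕ, M < N ∧ P.IsConductorLevel M ∧ P.ModularRepOfLevel M := by
  -- an odd prime divisor of `N`
  have hodd : ∃ q : ℕ, q.Prime ∧ q ≠ 2 ∧ q ∣ N := by
    by_contra hno
    push Not at hno
    apply hN
    -- every prime factor of `N` is `2`, and `N` is squarefree
    have h2 : ∀ q : ℕ, q.Prime → q ∣ N → q = 2 := fun q hq hqN => by
      by_contra hne
      exact hno q hq hne hqN
    by_cases h1 : N = 1
    · rw [h1]; exact one_dvd 2
    · obtain ⟨q, hq, hqN⟩ := Nat.exists_prime_and_dvd h1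
      have hq2 := h2 q hq hqN
      subst hq2
      obtain ⟨k, rfl⟩ := hqN
      have hk : k = 1 := by
        by_contra hk1
        obtain ⟨r, hr, hrk⟩ := Nat.exists_prime_and_dvd hk1
        have hr2 := h2 r hr (Dvd.dvd.mul_left hrk 2)
        subst hr2
        obtain ⟨j, rfl⟩ := hrk
        exact hc.not_four_dvd ⟨j, by ring⟩
      rw [hk]
  obtain ⟨q, hq, hq2, hqN⟩ := hodd
  have key : ∃ M : ℕ, M ∣ N ∧ ¬ q ∣ M ∧ P.ModularRepOfLevel M := by
    by_cases hqp : q = P.p
    · subst hqp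
      exact h44 P hc hqN hirr hm
    · exact h43 P hc hq hq2 hqp hqN hirr hm (h05 P hq hq2 hqp)
  obtain ⟨M, hMN, hqM, hmM⟩ := key
  have hM0 : 0 < M := Nat.pos_of_dvd_of_pos hMN hc.pos
  refine ⟨M, lt_of_le_of_ne (Nat.le_of_dvd hc.pos hMN) ?_, hc.of_dvd hMN hM0, hmM⟩
  rintro rfl
  exact hqM hqN

/-- Descent to a level dividing `2`. -/
theorem exists_dvd_two (h43 : NodeS43) (h44 : NodeS44') (h05 : NodeS05) (P : FreyPackage)
    (hirr : GaloisRepIsIrreducible (K := AlgebraicClosure ℚ) ℚ P.freyCurve P.p) :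
    ∀ N : ℕ, P.IsConductorLevel N → P.ModularRepOfLevel N →
      ∃ M : ℕ, M ∣ 2 ∧ P.IsConductorLevel M ∧ P.ModularRepOfLevel M := by
  intro N
  induction N using Nat.strong_induction_on with
  | _ N ih =>
    intro hc hm
    by_cases hN : N ∣ 2
    · exact ⟨N, hN, hc, hm⟩
    · obtain ⟨M, hlt, hcM, hmM⟩ := exists_lt h43 h44 h05 P hirr hc hm hN
      exact ih M hlt hcM hmM

/-- **The endgame of S45.** -/
theorem result_of_conductorLevel (h43 : NodeS43) (h44 : NodeS44') (h05 : NodeS05) (h08 : NodeS08)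
    (P : FreyPackage)
    (hirr : GaloisRepIsIrreducible (K := AlgebraicClosure ℚ) ℚ P.freyCurve P.p)
    (h : ∃ N : ℕ, P.IsConductorLevel N ∧ P.ModularRepOfLevel N) :
    ∃ f : CuspForm (CongruenceSubgroup.Gamma0 2) 2, f ≠ 0 := by
  obtain ⟨N, hc, hm⟩ := h
  obtain ⟨M, hM2, hcM, hmM⟩ := exists_dvd_two h43 h44 h05 P hirr N hc hm
  rcases (Nat.dvd_prime Nat.prime_two).1 hM2 with rfl | rfl
  · obtain ⟨f, -, -, hf, -⟩ := hmM
    exact absurd (h08 f) hf.ne_zero
  · obtain ⟨f, -, -, hf, -⟩ := hmM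
    exact ⟨f, hf.ne_zero⟩

end Fermat.Agent.S45.Endgame
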